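import Mathlib

/-!
# Row LT, tower T7, leaf T7.14.6d `WeightC`: the analytic core (helper179), Mathlib only

OFF-MAIN.  `K₀(t) = ∫₀^∞ exp(-t cosh u) du` and the weight
`G(T) = ∫_{r ∈ (0,∞)^ι, ∏ r_w² ≥ T} ∏_w K₀(c_w r_w)² / r_w dr`.

* `bK_pos179`, `bK_sq_le179` : `0 < K₀(t)`, `K₀(t)² ≤ (π / t) e^{-2t}` (`cosh u ≥ 1 + u²/4`);
* `gg_le179` : `G(T) ≤ T^{-s} ∏_w ∫₀^∞ r^{2s-1} K₀(c_w r)² dr` for every `s > 1/2`, `T > 0`
  (`1[∏ r² ≥ T] ≤ (∏ r² / T)^s`, Fubini);
* `weight_core179` : the five properties of a weight for `T ↦ G(T / t₀)`.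
-/

set_option autoImplicit false

open MeasureTheory Set

noncomputable section

namespace Fermat.Agent.LT.T7.H179

/-! ## The Bessel function `K₀` -/

/-- `K₀(t) = ∫₀^∞ exp(-t cosh u) du`. -/
def bK179 (t : ℝ) : ℝ := ∫ u in Ioi (0 : ℝ), Real.exp (-t * Real.cosh u)

theorem cosh_ge179 {u : ℝ} (hu : 0 ≤ u) : 1 + u ^ 2 / 4 ≤ Real.cosh u := by
  have h1 := Real.quadratic_le_exp_of_nonneg hu
  have h2 := Real.add_one_le_exp (-u)
  rw [Real.cosh_eq]
  linarith

theorem exp_cosh_le179 {t u : ℝ} (ht : 0 ≤ t) (hu : 0 ≤ u) :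
    Real.exp (-t * Real.cosh u) ≤ Real.exp (-t) * Real.exp (-(t / 4) * u ^ 2) := by
  rw [← Real.exp_add]
  apply Real.exp_le_exp.mpr
  have h := mul_le_mul_of_nonneg_left (cosh_ge179 hu) ht
  nlinarith

theorem integrableOn_gauss179 {t : ℝ} (ht : 0 < t) :
    IntegrableOn (fun u : ℝ => Real.exp (-t) * Real.exp (-(t / 4) * u ^ 2)) (Ioi 0) :=
  ((integrable_exp_neg_mul_sq (by positivity : (0 : ℝ) < t / 4)).const_mul _).integrableOn

theorem integrableOn_bK179 {t : ℝ} (ht : 0 < t) :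
    IntegrableOn (fun u : ℝ => Real.exp (-t * Real.cosh u)) (Ioi 0) := by
  refine Integrable.mono' (integrableOn_gauss179 ht) ?_ ?_
  · exact (by fun_prop : Continuous fun u : ℝ => Real.exp (-t * Real.cosh u)).aestronglyMeasurable
  · refine (ae_restrict_iff' measurableSet_Ioi).mpr (Filter.Eventually.of_forall fun u hu => ?_)
    rw [Real.norm_of_nonneg (Real.exp_pos _).le]
    exact exp_cosh_le179 ht.le (le_of_lt hu)

theorem bK_nonneg179 (t : ℝ) : 0 ≤ bK179 t :=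
  integral_nonneg fun _ => (Real.exp_pos _).le

theorem bK_pos179 {t : ℝ} (ht : 0 < t) : 0 < bK179 t := by
  unfold bK179
  rw [setIntegral_pos_iff_support_of_nonneg_ae
    (Filter.Eventually.of_forall fun u => (Real.exp_pos _).le) (integrableOn_bK179 ht)]
  have : Function.support (fun u : ℝ => Real.exp (-t * Real.cosh u)) = univ := by
    ext u
    simp [(Real.exp_pos _).ne']
  rw [this, univ_inter, Real.volume_Ioi]
  exact ENNReal.zero_lt_top

theorem bK_le179 {t : ℝ} (ht : 0 < t) :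
    bK179 t ≤ Real.exp (-t) * (√(Real.pi / (t / 4)) / 2) := by
  unfold bK179
  calc ∫ u in Ioi (0 : ℝ), Real.exp (-t * Real.cosh u)
      ≤ ∫ u in Ioi (0 : ℝ), Real.exp (-t) * Real.exp (-(t / 4) * u ^ 2) :=
        setIntegral_mono_on (integrableOn_bK179 ht) (integrableOn_gauss179 ht) measurableSet_Ioi
          fun u hu => exp_cosh_le179 ht.le (le_of_lt hu)
    _ = Real.exp (-t) * (√(Real.pi / (t / 4)) / 2) := by
        rw [integral_const_mul, integral_gaussian_Ioi]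

theorem bK_sq_le179 {t : ℝ} (ht : 0 < t) :
    bK179 t ^ 2 ≤ Real.pi / t * Real.exp (-(2 * t)) := by
  have h1 := bK_le179 ht
  have h0 := bK_nonneg179 t
  have h2 : bK179 t ^ 2 ≤ (Real.exp (-t) * (√(Real.pi / (t / 4)) / 2)) ^ 2 :=
    pow_le_pow_left₀ h0 h1 2
  have h3 : (Real.exp (-t) * (√(Real.pi / (t / 4)) / 2)) ^ 2
      = Real.pi / t * Real.exp (-(2 * t)) := by
    have hp : (0 : ℝ) ≤ Real.pi / (t / 4) := by positivity
    rw [mul_pow, div_pow, Real.sq_sqrt hp, ← Real.exp_nat_mul]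
    have : ((2 : ℕ) : ℝ) * -t = -(2 * t) := by push_cast; ring
    rw [this]
    field_simp
    ring
  linarith

theorem measurable_bK179 : Measurable bK179 := by
  have h : StronglyMeasurable (fun p : ℝ × ℝ => Real.exp (-p.1 * Real.cosh p.2)) :=
    (by fun_prop : Continuous fun p : ℝ × ℝ => Real.exp (-p.1 * Real.cosh p.2)).stronglyMeasurable
  exact (h.integral_prod_right' (ν := volume.restrict (Ioi (0 : ℝ)))).measurable

/-! ## The one-variable factor -/

/-- The inner function `(r²)^s K₀(c r)² / r`. -/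
def facIn179 (c s : ℝ) (r : ℝ) : ℝ := (r ^ 2) ^ s * (bK179 (c * r) ^ 2 / r)

/-- The one-variable factor `1[r > 0] (r²)^s K₀(c r)² / r`. -/
def fac179 (c s : ℝ) : ℝ → ℝ := (Ioi (0 : ℝ)).indicator (facIn179 c s)

theorem facIn_nonneg179 (c s : ℝ) {r : ℝ} (hr : 0 < r) : 0 ≤ facIn179 c s r :=
  mul_nonneg (Real.rpow_nonneg (sq_nonneg _) _) (div_nonneg (sq_nonneg _) hr.le)

theorem fac_nonneg179 (c s r : ℝ) : 0 ≤ fac179 c s r :=
  indicator_nonneg (fun _ hr => facIn_nonneg179 c s hr) r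

theorem fac_of_pos179 (c s : ℝ) {r : ℝ} (hr : 0 < r) :
    fac179 c s r = (r ^ 2) ^ s * (bK179 (c * r) ^ 2 / r) := by
  rw [fac179, indicator_of_mem (mem_Ioi.mpr hr)]
  rfl

theorem measurable_facIn179 (c s : ℝ) : Measurable (facIn179 c s) := by
  have h1 : Measurable fun r : ℝ => (r ^ 2) ^ s := (measurable_id.pow_const 2).pow_const s
  have h2 : Measurable fun r : ℝ => bK179 (c * r) ^ 2 / r :=
    ((measurable_bK179.comp (measurable_const.mul measurable_id)).pow_const 2).div measurable_id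
  exact h1.mul h2

theorem facIn_le179 {c s r : ℝ} (hc : 0 < c) (hr : 0 < r) :
    facIn179 c s r ≤ Real.pi / c * (r ^ (2 * s - 2) * Real.exp (-(2 * c) * r ^ (1 : ℝ))) := by
  have hb := bK_sq_le179 (mul_pos hc hr)
  have h1 : (r ^ 2) ^ s = r ^ (2 * s) := by
    rw [← Real.rpow_natCast_mul hr.le]
    norm_num
  have h2 : r ^ (2 * s - 2) = r ^ (2 * s) / r ^ 2 := by
    rw [Real.rpow_sub hr, Real.rpow_two]
  have h3 : bK179 (c * r) ^ 2 / r ≤ Real.pi / (c * r) * Real.exp (-(2 * (c * r))) / r :=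
    div_le_div_of_nonneg_right hb hr.le
  unfold facIn179
  rw [h1, h2, Real.rpow_one]
  calc r ^ (2 * s) * (bK179 (c * r) ^ 2 / r)
      ≤ r ^ (2 * s) * (Real.pi / (c * r) * Real.exp (-(2 * (c * r))) / r) :=
        mul_le_mul_of_nonneg_left h3 (Real.rpow_nonneg hr.le _)
    _ = Real.pi / c * (r ^ (2 * s) / r ^ 2 * Real.exp (-(2 * c) * r)) := by
        have : -(2 * (c * r)) = -(2 * c) * r := by ring
        rw [this]
        field_simp

theorem integrable_fac179 {c s : ℝ} (hc : 0 < c) (hs : 1 / 2 < s) : Integrable (fac179 c s) := by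
  have hI : IntegrableOn
      (fun r : ℝ => Real.pi / c * (r ^ (2 * s - 2) * Real.exp (-(2 * c) * r ^ (1 : ℝ)))) (Ioi 0) :=
    (integrableOn_rpow_mul_exp_neg_mul_rpow (by linarith) one_pos (by positivity)).const_mul _
  unfold fac179
  rw [integrable_indicator_iff measurableSet_Ioi]
  refine Integrable.mono' hI (measurable_facIn179 c s).aestronglyMeasurable ?_
  refine (ae_restrict_iff' measurableSet_Ioi).mpr (Filter.Eventually.of_forall fun r hr => ?_)
  rw [Real.norm_of_nonneg (facIn_nonneg179 c s hr)]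
  exact facIn_le179 hc hr

/-! ## The weight on `(0,∞)^ι` -/

section Weight

variable {ι : Type} [Fintype ι]

/-- The domain `{r ∈ (0,∞)^ι : T ≤ ∏ r_w²}`. -/
def dom179 (ι : Type) [Fintype ι] (T : ℝ) : Set (ι → ℝ) :=
  {r | (∀ w, 0 < r w) ∧ T ≤ ∏ w, r w ^ 2}

/-- The integrand `∏_w K₀(c_w r_w)² / r_w`. -/
def itg179 (c : ι → ℝ) (r : ι → ℝ) : ℝ := ∏ w, bK179 (c w * r w) ^ 2 / r w

/-- The weight `G(T) = ∫_{dom T} ∏_w K₀(c_w r_w)² / r_w`. -/
def gg179 (c : ι → ℝ) (T : ℝ) : ℝ := ∫ r in dom179 ι T, itg179 c r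

/-- The constant `∏_w ∫₀^∞ (r²)^s K₀(c_w r)² dr / r`. -/
def cst179 (c : ι → ℝ) (s : ℝ) : ℝ := ∏ w, ∫ r, fac179 (c w) s r

theorem measurableSet_dom179 (T : ℝ) : MeasurableSet (dom179 ι T) := by
  have h : dom179 ι T = (⋂ w, {r : ι → ℝ | 0 < r w}) ∩ {r | T ≤ ∏ w, r w ^ 2} := by
    ext r
    simp [dom179]
  rw [h]
  refine MeasurableSet.inter (MeasurableSet.iInter fun w => ?_) ?_
  · exact measurableSet_lt measurable_const (measurable_pi_apply w)
  · exact measurableSet_le measurable_const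
      (Finset.measurable_prod _ fun w _ => (measurable_pi_apply w).pow_const 2)

theorem measurable_itg179 (c : ι → ℝ) : Measurable (itg179 c) := by
  show Measurable (fun r : ι → ℝ => ∏ w, bK179 (c w * r w) ^ 2 / r w)
  refine Finset.measurable_prod _ fun w _ => ?_
  exact ((measurable_bK179.comp (measurable_const.mul (measurable_pi_apply w))).pow_const 2).div
    (measurable_pi_apply w)

theorem itg_nonneg179 (c : ι → ℝ) {r : ι → ℝ} (hr : ∀ w, 0 < r w) : 0 ≤ itg179 c r :=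
  Finset.prod_nonneg fun w _ => div_nonneg (sq_nonneg _) (hr w).le

theorem dom_anti179 {T₁ T₂ : ℝ} (h : T₁ ≤ T₂) : dom179 ι T₂ ⊆ dom179 ι T₁ :=
  fun _ hr => ⟨hr.1, h.trans hr.2⟩

/-- `1[∏ r² ≥ T] ≤ (∏ r² / T)^s`. -/
theorem itg_le179 (c : ι → ℝ) {T s : ℝ} (hT : 0 < T) (hs : 0 ≤ s) {r : ι → ℝ}
    (hr : r ∈ dom179 ι T) : itg179 c r ≤ T ^ (-s) * ∏ w, fac179 (c w) s (r w) := by
  obtain ⟨hpos, hprod⟩ := hr
  have h1 : ∏ w, fac179 (c w) s (r w) = (∏ w, r w ^ 2) ^ s * itg179 c r := by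
    rw [← Real.finsetProd_rpow _ _ (fun w _ => sq_nonneg (r w)), itg179, ← Finset.prod_mul_distrib]
    exact Finset.prod_congr rfl fun w _ => fac_of_pos179 _ _ (hpos w)
  have h2 : T ^ s ≤ (∏ w, r w ^ 2) ^ s := Real.rpow_le_rpow hT.le hprod hs
  have h3 : 0 ≤ itg179 c r := itg_nonneg179 c hpos
  have hTs : 0 < T ^ s := Real.rpow_pos_of_pos hT s
  have h4 : 1 ≤ (T ^ s)⁻¹ * (∏ w, r w ^ 2) ^ s := by
    rw [inv_mul_eq_div, one_le_div hTs]
    exact h2
  rw [h1, Real.rpow_neg hT.le, ← mul_assoc]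
  exact le_mul_of_one_le_left h3 h4

theorem integrable_prodFac179 {c : ι → ℝ} (hc : ∀ w, 0 < c w) {s : ℝ} (hs : 1 / 2 < s) :
    Integrable (fun r : ι → ℝ => ∏ w, fac179 (c w) s (r w)) :=
  Integrable.fintype_prod (μ := fun _ => (volume : Measure ℝ))
    (fun w => integrable_fac179 (hc w) hs)

theorem integrableOn_itg179 {c : ι → ℝ} (hc : ∀ w, 0 < c w) {T : ℝ} (hT : 0 < T) :
    IntegrableOn (itg179 c) (dom179 ι T) := by
  have hg : IntegrableOn (fun r : ι → ℝ => T ^ (-(1 : ℝ)) * ∏ w, fac179 (c w) 1 (r w))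
      (dom179 ι T) :=
    ((integrable_prodFac179 hc (by norm_num)).const_mul _).integrableOn
  refine Integrable.mono' hg (measurable_itg179 c).aestronglyMeasurable ?_
  refine (ae_restrict_iff' (measurableSet_dom179 T)).mpr
    (Filter.Eventually.of_forall fun r hr => ?_)
  rw [Real.norm_of_nonneg (itg_nonneg179 c hr.1)]
  exact itg_le179 c hT zero_le_one hr

/-- **The bound** `G(T) ≤ T^{-s} ∏_w ∫₀^∞ (r²)^s K₀(c_w r)² dr / r` (`s > 1/2`, `T > 0`). -/
theorem gg_le179 {c : ι → ℝ} (hc : ∀ w, 0 < c w) {T s : ℝ} (hT : 0 < T) (hs : 1 / 2 < s) :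
    gg179 c T ≤ T ^ (-s) * cst179 c s := by
  have hint := integrable_prodFac179 hc hs
  unfold gg179
  calc ∫ r in dom179 ι T, itg179 c r
      ≤ ∫ r in dom179 ι T, T ^ (-s) * ∏ w, fac179 (c w) s (r w) :=
        setIntegral_mono_on (integrableOn_itg179 hc hT) (hint.const_mul _).integrableOn
          (measurableSet_dom179 T) (fun r hr => itg_le179 c hT (by linarith) hr)
    _ ≤ ∫ r : ι → ℝ, T ^ (-s) * ∏ w, fac179 (c w) s (r w) :=
        setIntegral_le_integral (hint.const_mul _)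
          (Filter.Eventually.of_forall fun r => mul_nonneg (Real.rpow_nonneg hT.le _)
            (Finset.prod_nonneg fun w _ => fac_nonneg179 _ _ _))
    _ = T ^ (-s) * cst179 c s := by
        rw [integral_const_mul, integral_fintype_prod_volume_eq_prod]
        rfl

theorem gg_nonneg179 (c : ι → ℝ) (T : ℝ) : 0 ≤ gg179 c T :=
  setIntegral_nonneg (measurableSet_dom179 T) fun _ hr => itg_nonneg179 c hr.1

theorem gg_anti179 {c : ι → ℝ} (hc : ∀ w, 0 < c w) {T₁ T₂ : ℝ} (h1 : 0 < T₁) (h : T₁ ≤ T₂) :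
    gg179 c T₂ ≤ gg179 c T₁ := by
  unfold gg179
  refine setIntegral_mono_set (integrableOn_itg179 hc h1) ?_ (dom_anti179 h).eventuallyLE
  exact (ae_restrict_iff' (measurableSet_dom179 T₁)).mpr
    (Filter.Eventually.of_forall fun r hr => itg_nonneg179 c hr.1)

theorem gg_pos179 {c : ι → ℝ} (hc : ∀ w, 0 < c w) : 0 < gg179 c 1 := by
  unfold gg179
  rw [setIntegral_pos_iff_support_of_nonneg_ae
    ((ae_restrict_iff' (measurableSet_dom179 1)).mpr
      (Filter.Eventually.of_forall fun r hr => itg_nonneg179 c hr.1))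
    (integrableOn_itg179 hc one_pos)]
  have hsub : Set.pi univ (fun _ : ι => Ioo (1 : ℝ) 2)
      ⊆ Function.support (itg179 c) ∩ dom179 ι 1 := by
    intro r hr
    have hr' : ∀ w, 1 < r w := fun w => (hr w (mem_univ w)).1
    have hpos : ∀ w, 0 < r w := fun w => by linarith [hr' w]
    refine ⟨?_, hpos, ?_⟩
    · refine ne_of_gt (Finset.prod_pos fun w _ => ?_)
      exact div_pos (pow_pos (bK_pos179 (mul_pos (hc w) (hpos w))) 2) (hpos w)
    · calc (1 : ℝ) = ∏ _w : ι, (1 : ℝ) := by simp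
        _ ≤ ∏ w, r w ^ 2 := Finset.prod_le_prod (fun _ _ => zero_le_one)
            (fun w _ => by nlinarith [hr' w])
  refine lt_of_lt_of_le ?_ (measure_mono hsub)
  rw [Real.volume_pi_Ioo]
  norm_num

theorem gg_div_le179 {c : ι → ℝ} (hc : ∀ w, 0 < c w) {t₀ : ℝ} (ht₀ : 0 < t₀) {T s : ℝ}
    (hT : 0 < T) (hs : 1 / 2 < s) :
    gg179 c (T / t₀) ≤ cst179 c s / t₀ ^ (-s) * T ^ (-s) := by
  have h := gg_le179 hc (div_pos hT ht₀) hs
  rw [Real.div_rpow hT.le ht₀.le] at h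
  calc gg179 c (T / t₀) ≤ T ^ (-s) / t₀ ^ (-s) * cst179 c s := h
    _ = cst179 c s / t₀ ^ (-s) * T ^ (-s) := by ring

/-- **The five properties of a weight** for `T ↦ G(T / t₀)`. -/
theorem weight_core179 (c : ι → ℝ) (hc : ∀ w, 0 < c w) (t₀ : ℝ) (ht₀ : 0 < t₀) :
    (∀ T : ℝ, 0 < T → 0 ≤ gg179 c (T / t₀)) ∧
    AntitoneOn (fun T => gg179 c (T / t₀)) (Ioi 0) ∧
    (∃ T : ℝ, 0 < T ∧ 0 < gg179 c (T / t₀)) ∧
    IntegrableOn (fun T => gg179 c (T / t₀)) (Ioc 0 1) ∧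
    ∃ C η : ℝ, 0 < η ∧ ∀ T : ℝ, 1 ≤ T → gg179 c (T / t₀) ≤ C * T ^ (-(1 + η)) := by
  have hanti : AntitoneOn (fun T => gg179 c (T / t₀)) (Ioi 0) := fun T₁ h1 T₂ _ h =>
    gg_anti179 hc (div_pos h1 ht₀) (div_le_div_of_nonneg_right h ht₀.le)
  refine ⟨fun T _ => gg_nonneg179 c _, hanti, ⟨t₀, ht₀, ?_⟩, ?_, ?_⟩
  · rw [div_self ht₀.ne']
    exact gg_pos179 hc
  · have hmeas : AEStronglyMeasurable (fun T => gg179 c (T / t₀)) (volume.restrict (Ioc 0 1)) :=
      (aemeasurable_restrict_of_antitoneOn measurableSet_Ioc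
        (hanti.mono Ioc_subset_Ioi_self)).aestronglyMeasurable
    have hI : IntegrableOn
        (fun T : ℝ => cst179 c (3 / 4) / t₀ ^ (-(3 / 4 : ℝ)) * T ^ (-(3 / 4 : ℝ))) (Ioc 0 1) := by
      have h := intervalIntegral.intervalIntegrable_rpow' (r := -(3 / 4 : ℝ)) (by norm_num)
        (a := 0) (b := 1)
      exact ((intervalIntegrable_iff_integrableOn_Ioc_of_le zero_le_one).mp h).const_mul _
    refine Integrable.mono' hI hmeas ?_
    refine (ae_restrict_iff' measurableSet_Ioc).mpr (Filter.Eventually.of_forall fun T hT => ?_)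
    rw [Real.norm_of_nonneg (gg_nonneg179 c _)]
    exact gg_div_le179 hc ht₀ hT.1 (by norm_num)
  · refine ⟨cst179 c (1 + 1) / t₀ ^ (-(1 + 1 : ℝ)), 1, one_pos, fun T hT => ?_⟩
    exact gg_div_le179 hc ht₀ (by linarith) (by norm_num)

end Weight

end Fermat.Agent.LT.T7.H179
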