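import Fermat.Agent.LT.T7.H62.RigidStrip
import Fermat.Agent.LT.T7.H179.WeightCore

/-!
# Row LT, tower T7, leaf T7.14.6d `WeightC` (helper179)

OFF-MAIN.  `weightC179 K : Rigid.WeightC K`, VERBATIM vs `H62/RigidStrip.lean` (helper62),
UNCONDITIONAL, for every number field `K`.  The analysis is in `WeightCore.lean` (Mathlib only):
`K₀(t)² ≤ (π / t) e^{-2t}`, `archG c T ≤ C_s T^{-s}` for every `s > 1/2`
(`s = 3/4`: integrable at `0`; `s = 2`: decay at `∞`, `η = 1`).
-/

set_option autoImplicit false

open NumberField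

namespace Fermat.Agent.LT.T7.H179

open Fermat.Agent.LT.T7 Fermat.Agent.LT.T7.Rigid

theorem mult_eq_two179 (K : Type) [Field K] (h : TotCplx K) (w : InfinitePlace K) :
    w.mult = 2 := by
  have hw : ¬ w.IsReal := InfinitePlace.not_isReal_iff_isComplex.mpr (h w)
  simp [InfinitePlace.mult, hw]

variable (K : Type) [Field K] [NumberField K]

theorem archG_eq179 (h : TotCplx K) (c : InfinitePlace K → ℝ) (T : ℝ) :
    archG c T = gg179 c T := by
  unfold archG gg179 dom179 itg179
  simp only [mult_eq_two179 K h]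
  rfl

/-- **T7.14.6d `WeightC`**: the archimedean weight is a weight. -/
theorem weightC179 : WeightC K := by
  intro h c t₀ hc ht₀
  have hcore := weight_core179 c hc t₀ ht₀
  have heq : (fun T => archG c (T / t₀)) = fun T => gg179 c (T / t₀) :=
    funext fun T => archG_eq179 K h c _
  rw [heq]
  exact ⟨hcore.1, hcore.2.1, hcore.2.2.1, hcore.2.2.2.1, hcore.2.2.2.2⟩

end Fermat.Agent.LT.T7.H179
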